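import Fermat.Agent.DeligneSerre.X1.GenField
import Fermat.Agent.ModCurve.Group.Dessin
import Fermat.Agent.Curve.Basics

/-!
# The function field over `ℂ` of a subgroup of finite index

`FieldOf Γ` consists of the expansions of the quotients of `Γ`-invariant holomorphic functions
which are meromorphic at the cusps.
-/

set_option autoImplicit false
set_option linter.unusedSectionVars false
set_option linter.style.haveILetI false

noncomputable section

open UpperHalfPlane hiding I
open scoped MatrixGroups Manifold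

namespace FermatAgent.DeligneSerre.Curves

open FermatAgent.ModFun (cuspRing jFun dil qLaurent qLaurentHom IsTame)
open FermatAgent.ModCurveGroup (ContainsNegOne Edge)
open FermatAgent.DeligneSerre.X1 (levelRingOf levelRingOf_le_cuspRing RatGen genField)
open ModularCurve (coeffEmb jqModC)

/-- A subgroup of finite index containing `T` and `-1`, with a separating function with rational
expansion. -/
class IsCurveGroup (Γ : Subgroup SL(2, ℤ)) : Prop where
  T_mem : ModularGroup.T ∈ Γ
  neg_one_mem : (-1 : SL(2, ℤ)) ∈ Γ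
  finiteIndex : Γ.FiniteIndex
  nonempty_ratGen : Nonempty (RatGen Γ)

variable (Γ : Subgroup SL(2, ℤ)) [IsCurveGroup Γ]

instance (priority := low) instContainsNegOneCurve : ContainsNegOne Γ :=
  ⟨IsCurveGroup.neg_one_mem⟩

instance (priority := low) instFiniteIndexCurve : Γ.FiniteIndex := IsCurveGroup.finiteIndex

/-- A chosen separating function. -/
def curveGen : RatGen Γ := (IsCurveGroup.nonempty_ratGen (Γ := Γ)).some

theorem T_mem : ModularGroup.T ∈ Γ := IsCurveGroup.T_mem

/-- A common multiple of the widths of the cusps. -/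
def cuspPeriod : ℕ := Γ.normalCore.index

instance : NeZero (cuspPeriod Γ) :=
  ⟨haveI : Γ.normalCore.FiniteIndex := Subgroup.finiteIndex_normalCore Γ
   Subgroup.FiniteIndex.index_ne_zero⟩

theorem conj_T_zpow_period_mem (h : SL(2, ℤ)) :
    h * ModularGroup.T ^ (cuspPeriod Γ : ℤ) * h⁻¹ ∈ Γ := by
  refine Γ.normalCore_le ((Subgroup.normalCore_normal Γ).conj_mem _ ?_ h)
  rw [zpow_natCast]
  exact Γ.normalCore.pow_index_mem _

/-- Expansion of invariant functions. -/
def levelSeries : levelRingOf Γ →ₐ[ℂ] LaurentSeries ℂ :=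
  qLaurentHom.comp (Subalgebra.inclusion (levelRingOf_le_cuspRing (T_mem Γ)))

theorem levelSeries_injective : Function.Injective (levelSeries Γ) := fun f g h => by
  have := FermatAgent.ModFun.qLaurentHom_injective
    (a₁ := ⟨f, levelRingOf_le_cuspRing (T_mem Γ) f.2⟩)
    (a₂ := ⟨g, levelRingOf_le_cuspRing (T_mem Γ) g.2⟩) h
  exact Subtype.ext (congrArg (fun z : cuspRing => (z : ℍ → ℂ)) this)

/-- The function field over `ℂ`. -/
def FieldOf : IntermediateField ℂ (LaurentSeries ℂ) :=
  IntermediateField.adjoin ℂ (Set.range (levelSeries Γ))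

/-- The inclusion of the regular ring into the field. -/
def toField : levelRingOf Γ →ₐ[ℂ] FieldOf Γ :=
  (levelSeries Γ).codRestrict (FieldOf Γ).toSubalgebra fun f =>
    IntermediateField.subset_adjoin _ _ ⟨f, rfl⟩

theorem coe_toField (f : levelRingOf Γ) :
    (toField Γ f : LaurentSeries ℂ) = qLaurent (f : ℍ → ℂ) := rfl

theorem toField_injective : Function.Injective (toField Γ) := fun _ _ h =>
  levelSeries_injective Γ (congrArg Subtype.val h)

theorem exists_div (x : FieldOf Γ) :
    ∃ a b : levelRingOf Γ, b ≠ 0 ∧ x = toField Γ a / toField Γ b := by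
  obtain ⟨r, hr, s, hs, hrs⟩ := IntermediateField.mem_adjoin_iff_div.1 x.2
  rw [← AlgHom.coe_range, Algebra.adjoin_eq] at hr hs
  obtain ⟨a, rfl⟩ := hr
  obtain ⟨b, rfl⟩ := hs
  rcases eq_or_ne b 0 with rfl | hb0
  · refine ⟨0, 1, one_ne_zero, Subtype.ext ?_⟩
    rw [map_zero, zero_div, hrs, map_zero, div_zero]; rfl
  exact ⟨a, b, hb0, Subtype.ext hrs⟩

variable {Γ}

/-- An injective `ℂ`-algebra map on the regular ring extends to the field. -/
def extendHom {L : Type*} [Field L] [Algebra ℂ L] (φ : levelRingOf Γ →ₐ[ℂ] L)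
    (hφ : Function.Injective φ) : FieldOf Γ →ₐ[ℂ] L :=
  letI : Algebra (levelRingOf Γ) (FieldOf Γ) := (toField Γ).toRingHom.toAlgebra
  haveI : IsScalarTower ℂ (levelRingOf Γ) (FieldOf Γ) :=
    IsScalarTower.of_algebraMap_eq fun c => ((toField Γ).commutes c).symm
  haveI : IsDomain (levelRingOf Γ) := (toField_injective Γ).isDomain (toField Γ).toRingHom
  haveI : IsFractionRing (levelRingOf Γ) (FieldOf Γ) := by
    haveI : FaithfulSMul (levelRingOf Γ) (FieldOf Γ) :=
      (faithfulSMul_iff_algebraMap_injective _ _).2 (toField_injective Γ)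
    exact IsFractionRing.of_field (levelRingOf Γ) (FieldOf Γ) fun x => by
      obtain ⟨a, b, -, h⟩ := exists_div Γ x
      exact ⟨a, b, h⟩
  IsFractionRing.liftAlgHom (A := levelRingOf Γ) (K := FieldOf Γ) (L := L) (g := φ) hφ

theorem extendHom_toField {L : Type*} [Field L] [Algebra ℂ L] (φ : levelRingOf Γ →ₐ[ℂ] L)
    (hφ : Function.Injective φ) (a : levelRingOf Γ) :
    extendHom φ hφ (toField Γ a) = φ a := by
  letI : Algebra (levelRingOf Γ) (FieldOf Γ) := (toField Γ).toRingHom.toAlgebra
  haveI : IsScalarTower ℂ (levelRingOf Γ) (FieldOf Γ) :=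
    IsScalarTower.of_algebraMap_eq fun c => ((toField Γ).commutes c).symm
  haveI : IsDomain (levelRingOf Γ) := (toField_injective Γ).isDomain (toField Γ).toRingHom
  haveI : FaithfulSMul (levelRingOf Γ) (FieldOf Γ) :=
    (faithfulSMul_iff_algebraMap_injective _ _).2 (toField_injective Γ)
  haveI : IsFractionRing (levelRingOf Γ) (FieldOf Γ) :=
    IsFractionRing.of_field (levelRingOf Γ) (FieldOf Γ) fun x => by
      obtain ⟨a, b, -, h⟩ := exists_div Γ x
      exact ⟨a, b, h⟩
  exact IsFractionRing.lift_algebraMap (K := FieldOf Γ) (g := φ.toRingHom) hφ a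

theorem algHom_ext {L : Type*} [Field L] [Algebra ℂ L] {φ ψ : FieldOf Γ →ₐ[ℂ] L}
    (h : ∀ a : levelRingOf Γ, φ (toField Γ a) = ψ (toField Γ a)) : φ = ψ := by
  ext x
  obtain ⟨a, b, -, rfl⟩ := exists_div Γ x
  rw [map_div₀, map_div₀, h, h]

theorem mdiff_level (f : levelRingOf Γ) : MDiff (f : ℍ → ℂ) := f.2.1

theorem level_smul (f : levelRingOf Γ) {γ : SL(2, ℤ)} (hγ : γ ∈ Γ) (τ : ℍ) :
    (f : ℍ → ℂ) (γ • τ) = (f : ℍ → ℂ) τ := f.2.2.1 γ hγ τ

/-- Expansion at the cusp `h ∞` in the parameter `q ^ (1 / cuspPeriod Γ)`. -/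
theorem mem_cuspRing_at_cusp_of (f : levelRingOf Γ) (h : SL(2, ℤ)) :
    (fun τ : ℍ => (f : ℍ → ℂ) (h • dil (cuspPeriod Γ) τ)) ∈ cuspRing := by
  set L := cuspPeriod Γ
  refine ⟨FermatAgent.ModFun.mdiff_comp (FermatAgent.ModFun.mdiff_comp_smul f.2.1 h) ?_,
    fun τ => ?_, (f.2.2.2 h).comp (Nat.cast_pos.mpr (NeZero.pos L)) (FermatAgent.ModFun.dil_im L)⟩
  · simp only [FermatAgent.ModFun.coe_dil]
    exact mdifferentiable_const.mul mdifferentiable_coe
  · have hT : dil L ((1 : ℝ) +ᵥ τ) = ModularGroup.T ^ (L : ℤ) • dil L τ := by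
      rw [FermatAgent.ModFun.dil_vadd, mul_one, modular_T_zpow_smul, Int.cast_natCast]
    calc (f : ℍ → ℂ) (h • dil L ((1 : ℝ) +ᵥ τ))
        = (f : ℍ → ℂ) ((h * ModularGroup.T ^ (L : ℤ) * h⁻¹) • h • dil L τ) := by
          rw [hT, smul_smul, smul_smul, inv_mul_cancel_right]
      _ = (f : ℍ → ℂ) (h • dil L τ) := level_smul f (conj_T_zpow_period_mem Γ h) _

variable (Γ)

/-- The element `j` of the regular ring. -/
def jElt : levelRingOf Γ :=
  ⟨jFun, FermatAgent.ModFun.jFun_mdiff, fun γ _ τ => FermatAgent.ModFun.jFun_smul γ τ, fun γ => by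
    simp only [FermatAgent.ModFun.jFun_smul]
    exact FermatAgent.ModFun.jFun_tame⟩

theorem coe_jElt : (jElt Γ : ℍ → ℂ) = jFun := rfl

/-- `j` in the field. -/
def jF : FieldOf Γ := toField Γ (jElt Γ)

theorem coe_jF : (jF Γ : LaurentSeries ℂ) = jqModC ℂ := FermatAgent.ModFun.qLaurent_jFun

theorem fieldOf_eq_genField : FieldOf Γ = genField (curveGen Γ) ℂ := by
  refine le_antisymm ?_ ?_
  · rw [FieldOf, IntermediateField.adjoin_le_iff]
    rintro _ ⟨f, rfl⟩
    exact X1.qLaurent_mem_genField (T_mem Γ) _ f.2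
  · rw [genField, IntermediateField.adjoin_le_iff]
    rintro _ (rfl | rfl)
    · exact IntermediateField.subset_adjoin _ _ ⟨jElt Γ, FermatAgent.ModFun.qLaurent_jFun⟩
    · exact IntermediateField.subset_adjoin _ _ ⟨(curveGen Γ).θ, (curveGen Γ).hser⟩

set_option maxHeartbeats 400000 in
set_option synthInstance.maxHeartbeats 80000 in
/-- The degree over the `j`-line is the index. -/
theorem finrank_adjoin_jF :
    Module.finrank (IntermediateField.adjoin ℂ {jF Γ}) (FieldOf Γ) = Γ.index := by
  have h := X1.finrank_adjoin_jGen (T_mem Γ) (curveGen Γ) ℂ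
  let e := IntermediateField.equivOfEq (fieldOf_eq_genField Γ).symm
  have he : (IntermediateField.adjoin ℂ {X1.jGen (curveGen Γ) ℂ}).map e.toAlgHom =
      IntermediateField.adjoin ℂ {jF Γ} := by
    rw [IntermediateField.adjoin_map, Set.image_singleton]
    rw [show e.toAlgHom (X1.jGen (curveGen Γ) ℂ) = jF Γ from Subtype.ext (coe_jF Γ).symm]
  rw [← h]
  exact (Algebra.finrank_eq_of_equiv_equiv
    (((IntermediateField.adjoin ℂ {X1.jGen (curveGen Γ) ℂ}).equivMap e.toAlgHom).trans
      (IntermediateField.equivOfEq he)).toRingEquiv e.toRingEquiv rfl).symm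

theorem transcendental_jF : Transcendental ℂ (jF Γ) := by
  rintro ⟨p, hp, h⟩
  refine hp (FermatAgent.ModFun.aeval_jqModC_eq_zero ?_)
  have h' := congrArg Subtype.val h
  rw [← coe_jF Γ]
  exact (Polynomial.aeval_algHom_apply (IntermediateField.val _) _ p).trans h'

set_option synthInstance.maxHeartbeats 80000 in
theorem isFunctionField1_fieldOf : FermatAgent.Curve.IsFunctionField1 ℂ (FieldOf Γ) :=
  haveI : FiniteDimensional (IntermediateField.adjoin ℂ {jF Γ}) (FieldOf Γ) :=
    Module.finite_of_finrank_pos (by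
      rw [finrank_adjoin_jF]; exact Nat.pos_of_ne_zero Subgroup.FiniteIndex.index_ne_zero)
  FermatAgent.Curve.IsFunctionField1.of_finiteDimensional (transcendental_jF Γ)

instance : FermatAgent.Curve.IsFunctionField1 ℂ (FieldOf Γ) := isFunctionField1_fieldOf Γ

end FermatAgent.DeligneSerre.Curves
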