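import Fermat.Agent.DeligneSerre.X1.Points.Sheets
import Fermat.Agent.ModCurve.Points.Places

/-!
# Points of `Γ \\ ℍ*`: places of the function field and orbits

`pointPlace Γ z` is the place under `z : ℍ`, `cuspPlace Γ h` the place under the cusp `h ∞`.
-/

set_option autoImplicit false
set_option linter.unusedSectionVars false

noncomputable section

open scoped MatrixGroups Manifold
open UpperHalfPlane hiding I
open Filter Topology AlgebraicCurve

namespace FermatAgent.DeligneSerre.Curves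

open FermatAgent.ModFun (jFun)
open FermatAgent.ModCurve.Points (MeroGerm LocalMonodromy localMonodromy jC SheetData ValTarget
  moeb moeb_coe analyticAt_moeb hasDerivAt_moeb autFactor_ne_zero eventually_im_pos ofComplex_moeb
  pow_smul_eq jFun_surjective exists_smul_of_jFun_eq)
open FermatAgent.ModCurveGroup (Edge)
open FermatAgent.DeligneSerre.X1 (levelRingOf)

variable (Γ : Subgroup SL(2, ℤ)) [IsCurveGroup Γ]

theorem toField_jElt : toField Γ (jElt Γ) = jF Γ := rfl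

theorem jSubC_eq (c : ℂ) : jSubC Γ c = jF Γ - algebraMap ℂ (FieldOf Γ) c := by
  show toField Γ (jElt Γ - algebraMap ℂ (levelRingOf Γ) c) = _
  erw [map_sub (toField Γ)]
  rw [AlgHom.commutes, toField_jElt]

theorem invJ_eq : invJ Γ = (jF Γ)⁻¹ := by rw [invJ, toField_jElt]

theorem transcendental_jSubC (c : ℂ) : Transcendental ℂ (jSubC Γ c) := by
  rw [jSubC_eq]
  exact FermatAgent.Curve.transcendental_sub_const (transcendental_jF Γ) c

theorem card_edge : Fintype.card (Edge (Γ)) = Γ.index := by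
  rw [Subgroup.index, Nat.card_eq_fintype_card]

theorem sum_ord_le_of_finrank {x : FieldOf Γ} (hx : Transcendental ℂ x)
    (hdeg : Module.finrank (IntermediateField.adjoin ℂ {x}) (FieldOf Γ) = Γ.index)
    (s : Finset (Place ℂ (FieldOf Γ))) (hs : ∀ P ∈ s, 0 < P.ord x) :
    ∑ P ∈ s, P.ord x ≤ Fintype.card (Edge (Γ)) := by
  have h := FermatAgent.Curve.sum_toNat_ord_le_finrank hx s hs
  rw [hdeg, ← card_edge] at h
  calc ∑ P ∈ s, P.ord x = ((∑ P ∈ s, (P.ord x).toNat : ℕ) : ℤ) := by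
        push_cast
        exact Finset.sum_congr rfl fun P hP => by have := hs P hP; omega
    _ ≤ _ := by exact_mod_cast h

/-! ### Points of the upper half plane -/

/-- The base coset. -/
abbrev baseCoset : Edge (Γ) := ((1 : SL(2, ℤ)) : Edge (Γ))

/-- The place of `ℂ(X(Γ))` under a point of `ℍ`. -/
def pointPlace (z : ℍ) : Place ℂ (FieldOf Γ) := (affineSheets Γ z).place (baseCoset Γ)

/-- The order at `z` of the meromorphic function attached to `f`. -/
def ordAt (z : ℍ) (f : FieldOf Γ) : ℤ :=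
  (MeroGerm.valTarget (z : ℂ)).ordZ (pointHom Γ z 1 f)

/-- The order of the stabiliser of `z` in `Γ` modulo `±1`. -/
def ellIndex (z : ℍ) : ℕ := (affineSheets Γ z).step (baseCoset Γ)

theorem ellIndex_pos (z : ℍ) : 0 < ellIndex Γ z := (affineSheets Γ z).step_pos _

theorem ordAt_eq (z : ℍ) (f : FieldOf Γ) :
    ordAt Γ z f = ellIndex Γ z * (pointPlace Γ z).ord f := by
  have h := (affineSheets Γ z).ordZ_ι (baseCoset Γ) f
  have e : (affineSheets Γ z).ι (baseCoset Γ) = pointHom Γ z 1 :=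
    (sheet_mk Γ z (1 : SL(2, ℤ))).trans (by rw [inv_one])
  rw [e] at h
  exact h

theorem v_germHom_smul (h : SL(2, ℤ)) (z : ℍ) (a : levelRingOf Γ) :
    (MeroGerm.valTarget (z : ℂ)).v (germHom z h a) =
      (MeroGerm.valTarget ((h • z : ℍ) : ℂ)).v (germHom (h • z) 1 a) := by
  show MeroGerm.ord (germHom z h a) = MeroGerm.ord (germHom (h • z) 1 a)
  rw [germHom_apply, germHom_apply, MeroGerm.ord_mk, MeroGerm.ord_mk, ← moeb_coe,
    ← meromorphicOrderAt_comp_of_deriv_ne_zero (analyticAt_moeb h z)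
      (by rw [(hasDerivAt_moeb h z).deriv]; exact inv_ne_zero (pow_ne_zero _ (autFactor_ne_zero h z)))]
  apply meromorphicOrderAt_congr
  filter_upwards [nhdsWithin_le_nhds (eventually_im_pos z)] with w hw
  simp [evalC, ofComplex_moeb h hw]

theorem v_pointHom_smul (h : SL(2, ℤ)) (z : ℍ) (f : FieldOf Γ) :
    (MeroGerm.valTarget (z : ℂ)).v (pointHom Γ z h f) =
      (MeroGerm.valTarget ((h • z : ℍ) : ℂ)).v (pointHom Γ (h • z) 1 f) := by
  obtain ⟨a, b, -, rfl⟩ := exists_div Γ f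
  rw [map_div₀ (pointHom Γ z h), map_div₀ (pointHom Γ (h • z) 1), AddValuation.map_div,
    AddValuation.map_div, pointHom_toField,
    pointHom_toField, pointHom_toField, pointHom_toField, v_germHom_smul Γ h z a,
    v_germHom_smul Γ h z b]

theorem place_affineSheets (z : ℍ) (a : SL(2, ℤ)) :
    (affineSheets Γ z).place (a : Edge (Γ)) = pointPlace Γ (a⁻¹ • z) := by
  apply Place.ext
  ext f
  rw [SheetData.mem_place_iff, pointPlace, SheetData.mem_place_iff]
  show 0 ≤ _ ↔ 0 ≤ _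
  rw [show (affineSheets Γ z).ι (a : Edge (Γ)) = pointHom Γ z a⁻¹ from sheet_mk Γ z a,
    show (affineSheets Γ (a⁻¹ • z)).ι (baseCoset Γ) = pointHom Γ (a⁻¹ • z) 1⁻¹ from sheet_mk Γ _ _,
    inv_one, v_pointHom_smul]

theorem ord_jSubC_pointPlace (z : ℍ) :
    0 < (pointPlace Γ z).ord (jSubC Γ (jFun z)) := (affineSheets Γ z).ord_J_pos _

theorem smul_base_eq_iff (g : SL(2, ℤ)) (x : Edge (Γ)) (i : ℕ) :
    (fun y : Edge (Γ) => g⁻¹ • y)^[i] x = ((g ^ i)⁻¹ : SL(2, ℤ)) • x := by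
  rw [smul_iterate, inv_pow]

theorem ellIndex_mul_ram (z : ℍ) :
    ellIndex Γ z * (affineSheets Γ z).ram (baseCoset Γ) = (localMonodromy z).M :=
  (affineSheets Γ z).step_mul_ram _

theorem ellIndex_dvd (z : ℍ) : ellIndex Γ z ∣ (localMonodromy z).M :=
  Dvd.intro _ (ellIndex_mul_ram Γ z)

theorem pow_mem_iff (z : ℍ) (i : ℕ) :
    (localMonodromy z).g ^ i ∈ Γ ↔ (affineSheets Γ z).ram (baseCoset Γ) ∣ i := by
  rw [← (affineSheets Γ z).iterate_eq_iff,
    show (affineSheets Γ z).π = fun y => (localMonodromy z).g⁻¹ • y from rfl,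
    smul_base_eq_iff, baseCoset, MulAction.Quotient.smul_coe, smul_eq_mul, mul_one,
    QuotientGroup.eq, inv_inv, mul_one]

/-- Every place at which `j` takes the value `c` is a point. -/
theorem exists_pointPlace_of_ord_pos {c : ℂ} {P : Place ℂ (FieldOf Γ)}
    (hP : 0 < P.ord (jSubC Γ c)) : ∃ z, jFun z = c ∧ pointPlace Γ z = P := by
  obtain ⟨z, rfl⟩ := jFun_surjective c
  have hdeg : Module.finrank (IntermediateField.adjoin ℂ {jSubC Γ (jFun z)}) (FieldOf Γ)
      = Γ.index := by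
    rw [jSubC_eq, FermatAgent.Curve.adjoin_simple_sub_const]
    exact finrank_adjoin_jF Γ
  obtain ⟨x, hx⟩ := (affineSheets Γ z).place_surjective
    (sum_ord_le_of_finrank Γ (transcendental_jSubC Γ _) hdeg) hP
  induction x using QuotientGroup.induction_on with | _ a => ?_
  exact ⟨a⁻¹ • z, FermatAgent.ModFun.jFun_smul _ _, by rw [← place_affineSheets]; exact hx⟩

/-! ### Cusps -/

/-- The place under the cusp `h ∞`. -/
def cuspPlace (h : SL(2, ℤ)) : Place ℂ (FieldOf Γ) :=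
  (cuspSheets Γ).place ((h⁻¹ : SL(2, ℤ)) : Edge (Γ))

/-- The width of the cusp `h ∞`. -/
def cuspWidth (h : SL(2, ℤ)) : ℕ := (cuspSheets Γ).ram ((h⁻¹ : SL(2, ℤ)) : Edge (Γ))

/-- The order in `q^(1/N)` of `f(h τ)` at infinity. -/
def ordCusp (h : SL(2, ℤ)) (f : FieldOf Γ) : ℤ :=
  (MeroGerm.valTarget (0 : ℂ)).ordZ (cuspHom Γ h f)

theorem cuspWidth_pos (h : SL(2, ℤ)) : 0 < cuspWidth Γ h := (cuspSheets Γ).ram_pos _

theorem cuspWidth_dvd (h : SL(2, ℤ)) : cuspWidth Γ h ∣ cuspPeriod Γ :=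
  Dvd.intro_left _ ((cuspSheets Γ).step_mul_ram _)

theorem ordCusp_eq (h : SL(2, ℤ)) (f : FieldOf Γ) :
    (cuspWidth Γ h : ℤ) * ordCusp Γ h f = cuspPeriod Γ * (cuspPlace Γ h).ord f := by
  have h1 := (cuspSheets Γ).ordZ_ι ((h⁻¹ : SL(2, ℤ)) : Edge (Γ)) f
  rw [show (cuspSheets Γ).ι ((h⁻¹ : SL(2, ℤ)) : Edge (Γ)) = cuspHom Γ h⁻¹⁻¹ from
    cuspSheet_mk Γ _, inv_inv] at h1
  rw [ordCusp, h1]
  have h2 : ((cuspSheets Γ).step ((h⁻¹ : SL(2, ℤ)) : Edge (Γ)) : ℤ) * cuspWidth Γ h = cuspPeriod Γ := by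
    exact_mod_cast (cuspSheets Γ).step_mul_ram ((h⁻¹ : SL(2, ℤ)) : Edge (Γ))
  conv_rhs => rw [← h2]
  show (cuspWidth Γ h : ℤ) * (_ * (cuspPlace Γ h).ord f) = _
  ring

theorem cusp_π_iterate (x : Edge (Γ)) (i : ℕ) :
    (cuspSheets Γ).π^[i] x = ((ModularGroup.T ^ i)⁻¹ : SL(2, ℤ)) • x :=
  smul_base_eq_iff Γ ModularGroup.T x i

/-- The width is the least positive `i` with `h Tⁱ h⁻¹ ∈ Γ`. -/
theorem conj_T_pow_mem_iff (h : SL(2, ℤ)) (i : ℕ) :
    h * ModularGroup.T ^ i * h⁻¹ ∈ Γ ↔ cuspWidth Γ h ∣ i := by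
  rw [cuspWidth, ← (cuspSheets Γ).iterate_eq_iff, cusp_π_iterate, MulAction.Quotient.smul_coe,
    smul_eq_mul, QuotientGroup.eq]
  rw [show ((ModularGroup.T ^ i)⁻¹ * h⁻¹)⁻¹ * h⁻¹ = h * ModularGroup.T ^ i * h⁻¹ by group]

theorem exists_cuspPlace_of_ord_neg {P : Place ℂ (FieldOf Γ)} (hP : P.ord (jF Γ) < 0) :
    ∃ h, cuspPlace Γ h = P := by
  have hdeg : Module.finrank (IntermediateField.adjoin ℂ {invJ Γ}) (FieldOf Γ)
      = Γ.index := by
    rw [invJ_eq, FermatAgent.Curve.adjoin_simple_inv]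
    exact finrank_adjoin_jF Γ
  have htr : Transcendental ℂ (invJ Γ) := by
    rw [invJ_eq]
    exact fun halg => transcendental_jF Γ (IsAlgebraic.inv_iff.1 halg)
  have hP' : 0 < P.ord (invJ Γ) := by rw [invJ_eq, Place.ord_inv]; omega
  obtain ⟨x, hx⟩ := (cuspSheets Γ).place_surjective (sum_ord_le_of_finrank Γ htr hdeg) hP'
  induction x using QuotientGroup.induction_on with | _ a => ?_
  exact ⟨a⁻¹, by rw [cuspPlace, inv_inv]; exact hx⟩

/-- Every place is a point or a cusp. -/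
theorem exists_point_or_cusp (P : Place ℂ (FieldOf Γ)) :
    (∃ z, pointPlace Γ z = P) ∨ ∃ h, cuspPlace Γ h = P := by
  rcases lt_or_ge (P.ord (jF Γ)) 0 with hneg | hnn
  · exact Or.inr (exists_cuspPlace_of_ord_neg Γ hneg)
  · refine Or.inl ?_
    have hmem : jF Γ ∈ P.toValuationSubring :=
      (FermatAgent.Curve.mem_iff_ord_nonneg' P).2 hnn
    have hne : jF Γ - algebraMap ℂ (FieldOf Γ) (FermatAgent.Curve.valueAt P (jF Γ)) ≠ 0 :=
      fun h0 => transcendental_jSubC Γ (FermatAgent.Curve.valueAt P (jF Γ))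
        (by rw [jSubC_eq, h0]; exact isAlgebraic_zero)
    have hpos : 0 < P.ord (jSubC Γ (FermatAgent.Curve.valueAt P (jF Γ))) := by
      rw [jSubC_eq]
      exact (FermatAgent.Curve.valueAt_spec P hmem).resolve_left (sub_ne_zero.1 hne)
    obtain ⟨z, -, hz⟩ := exists_pointPlace_of_ord_pos Γ hpos
    exact ⟨z, hz⟩

end FermatAgent.DeligneSerre.Curves
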