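import Fermat.Agent.DeligneSerre.X1.Points.Field
import Fermat.Agent.ModCurve.Points.CuspSheets

/-!
# The sheets of `Γ \\ ℍ* → SL₂(ℤ) \\ ℍ*`

Over a point of the upper half plane and over the cusp the embeddings of the function field into
meromorphic germs, indexed by the cosets, with their monodromy.
-/

set_option autoImplicit false
set_option linter.unusedSectionVars false

noncomputable section

open scoped MatrixGroups Manifold
open UpperHalfPlane hiding I
open Filter Topology Function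

namespace FermatAgent.DeligneSerre.Curves

open FermatAgent.ModFun (cuspRing jFun jd dil qLaurent IsTame)
open FermatAgent.ModCurve.Points (MeroGerm LocalMonodromy localMonodromy jC meromorphicAt_jC_sub
  order_jC_sub moeb moeb_coe ofComplex_moeb eventually_im_pos cuspFunction_apply_of_ne
  eventually_invQParam_im_pos meromorphicAt_cuspFunction cuspFunction_qParam SheetData cuspRot
  isPrimitiveRoot_cuspRot cuspσ cuspσ_lead dil_inv_natCast_vadd meromorphicOrderAt_cuspFunction_jd
  MeroGerm.compHom_mk)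
open FermatAgent.ModCurveGroup (Edge)
open FermatAgent.DeligneSerre.X1 (levelRingOf Separates)

local notation "𝕢" => Periodic.qParam

variable {Γ : Subgroup SL(2, ℤ)} [IsCurveGroup Γ]

/-- A member of the regular ring transformed by `h`, as a function on `ℂ`. -/
def evalC (h : SL(2, ℤ)) (f : levelRingOf Γ) : ℂ → ℂ := fun w => (f : ℍ → ℂ) (h • ofComplex w)

theorem evalC_coe (h : SL(2, ℤ)) (f : levelRingOf Γ) (z : ℍ) : evalC h f z = (f : ℍ → ℂ) (h • z) := by
  simp [evalC]

theorem analyticAt_evalC (h : SL(2, ℤ)) (f : levelRingOf Γ) (z : ℍ) :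
    AnalyticAt ℂ (evalC h f) z :=
  (UpperHalfPlane.mdifferentiable_iff.mp
    (FermatAgent.ModFun.mdiff_comp_smul (mdiff_level f) h)).analyticAt
    (isOpen_upperHalfPlaneSet.mem_nhds z.im_pos)

theorem level_eq_of_germ {h h' : SL(2, ℤ)} {f g : levelRingOf Γ} {z : ℍ}
    (he : evalC h f =ᶠ[𝓝[≠] (z : ℂ)] evalC h' g) :
    ∀ τ : ℍ, (f : ℍ → ℂ) (h • τ) = (g : ℍ → ℂ) (h' • τ) := by
  have h1 : evalC h f =ᶠ[𝓝 (z : ℂ)] evalC h' g :=
    ((analyticAt_evalC h f z).continuousAt.eventuallyEq_nhds_iff_eventuallyEq_nhdsNE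
      (analyticAt_evalC h' g z).continuousAt).1 he
  have han : ∀ (u : SL(2, ℤ)) (v : levelRingOf Γ),
      AnalyticOnNhd ℂ (evalC u v) UpperHalfPlane.upperHalfPlaneSet :=
    fun u v w hw => analyticAt_evalC u v ⟨w, hw⟩
  have h2 := (han h f).eqOn_of_preconnected_of_eventuallyEq (han h' g)
    ((convex_halfSpace_im_gt 0).isPreconnected) z.im_pos h1
  intro τ
  rw [← evalC_coe, ← evalC_coe]
  exact h2 τ.im_pos

/-- The germ at `z` of a member of the regular ring transformed by `h`. -/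
def germHom (z : ℍ) (h : SL(2, ℤ)) : levelRingOf Γ →ₐ[ℂ] MeroGerm (z : ℂ) where
  toFun f := MeroGerm.mk (evalC h f) (analyticAt_evalC h f z).meromorphicAt
  map_one' := rfl
  map_mul' _ _ := rfl
  map_zero' := rfl
  map_add' _ _ := rfl
  commutes' _ := rfl

theorem germHom_apply (z : ℍ) (h : SL(2, ℤ)) (f : levelRingOf Γ) :
    germHom z h f = MeroGerm.mk (evalC h f) (analyticAt_evalC h f z).meromorphicAt := rfl

theorem germHom_injective (z : ℍ) (h : SL(2, ℤ)) :
    Function.Injective (germHom (Γ := Γ) z h) := by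
  intro f g he
  rw [germHom_apply, germHom_apply, MeroGerm.mk_eq_mk] at he
  refine Subtype.ext (funext fun τ => ?_)
  have := level_eq_of_germ he (h⁻¹ • τ)
  rwa [smul_inv_smul] at this

/-- The embedding of the function field given by `h` at `z`. -/
def pointHom (Γ : Subgroup SL(2, ℤ)) [IsCurveGroup Γ] (z : ℍ) (h : SL(2, ℤ)) : FieldOf Γ →ₐ[ℂ] MeroGerm (z : ℂ) :=
  extendHom (germHom z h) (germHom_injective z h)

theorem pointHom_toField (z : ℍ) (h : SL(2, ℤ)) (f : levelRingOf Γ) :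
    pointHom Γ z h (toField Γ f) = germHom z h f := extendHom_toField _ _ _

theorem pointHom_mul_left {z : ℍ} {γ : SL(2, ℤ)} (hγ : γ ∈ Γ) (h : SL(2, ℤ)) :
    pointHom Γ z (γ * h) = pointHom Γ z h := by
  refine algHom_ext fun f => ?_
  rw [pointHom_toField, pointHom_toField, germHom_apply, germHom_apply, MeroGerm.mk_eq_mk]
  refine Eventually.of_forall fun w => ?_
  simp only [evalC, mul_smul, level_smul f hγ]

theorem σ_comp_pointHom {z : ℍ} (D : LocalMonodromy z) (h : SL(2, ℤ)) :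
    D.σ.comp (pointHom Γ z h) = pointHom Γ z (h * D.g) := by
  refine algHom_ext fun f => ?_
  rw [AlgHom.comp_apply, pointHom_toField, pointHom_toField, germHom_apply, germHom_apply,
    LocalMonodromy.σ, MeroGerm.compHom_mk, MeroGerm.mk_eq_mk]
  filter_upwards [nhdsWithin_le_nhds (eventually_im_pos z)] with w hw
  simp only [Function.comp_apply, evalC, mul_smul, ofComplex_moeb D.g hw]

variable (Γ)

/-- The element `j - c` of the function field. -/
def jSubC (c : ℂ) : FieldOf Γ := toField Γ (jElt Γ - algebraMap ℂ (levelRingOf Γ) c)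

theorem pointHom_jSubC (z : ℍ) (h : SL(2, ℤ)) (c : ℂ) :
    pointHom Γ z h (jSubC Γ c) =
      MeroGerm.mk (fun w => jC w - c) (meromorphicAt_jC_sub z c) := by
  rw [jSubC, pointHom_toField, germHom_apply, MeroGerm.mk_eq_mk]
  refine Eventually.of_forall fun w => ?_
  show ((jElt Γ) : ℍ → ℂ) (h • ofComplex w) - c = jC w - c
  rw [coe_jElt, FermatAgent.ModFun.jFun_smul, jC]
  rfl


/-- The sheet at `z` attached to a coset `h Γ`: `f ↦ f(h⁻¹ τ)`. -/
def sheet (z : ℍ) : Edge (Γ) → (FieldOf Γ →ₐ[ℂ] MeroGerm (z : ℂ)) :=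
  fun x => Quotient.liftOn' x (fun h => pointHom Γ z h⁻¹) fun a b hab => by
    rw [QuotientGroup.leftRel_apply] at hab
    show pointHom Γ z a⁻¹ = pointHom Γ z b⁻¹
    rw [show a⁻¹ = (a⁻¹ * b) * b⁻¹ by group]
    exact pointHom_mul_left hab _

theorem sheet_mk (z : ℍ) (h : SL(2, ℤ)) :
    sheet Γ z (h : Edge (Γ)) = pointHom Γ z h⁻¹ := rfl

theorem coset_eq_of_theta {a b : SL(2, ℤ)}
    (h : ∀ τ : ℍ, ((curveGen Γ).θ : ℍ → ℂ) (a⁻¹ • τ) = ((curveGen Γ).θ : ℍ → ℂ) (b⁻¹ • τ)) :
    (a : Edge Γ) = (b : Edge Γ) :=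
  (curveGen Γ).sep (Subtype.ext (funext fun τ => by
    show X1.conjOf _ (a : SL(2, ℤ) ⧸ Γ) τ = X1.conjOf _ (b : SL(2, ℤ) ⧸ Γ) τ
    rw [X1.conjOf_mk (curveGen Γ).θ.2, X1.conjOf_mk (curveGen Γ).θ.2]
    exact h τ))

theorem sheet_injective (z : ℍ) : Function.Injective (sheet Γ z) := by
  intro x y hxy
  induction x using QuotientGroup.induction_on with | _ a => ?_
  induction y using QuotientGroup.induction_on with | _ b => ?_
  rw [sheet_mk, sheet_mk] at hxy
  have h1 := congrArg (fun φ : FieldOf Γ →ₐ[ℂ] MeroGerm (z : ℂ) => φ (toField Γ (curveGen Γ).θ)) hxy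
  simp only [pointHom_toField, germHom_apply, MeroGerm.mk_eq_mk] at h1
  exact coset_eq_of_theta Γ (level_eq_of_germ h1)

/-- The sheets over `z` with their local monodromy. -/
def affineSheets (z : ℍ) :
    SheetData (MeroGerm.valTarget (z : ℂ)) (FieldOf Γ) (Edge (Γ)) where
  ι := sheet Γ z
  inj := sheet_injective Γ z
  J := jSubC Γ (jFun z)
  M := (localMonodromy z).M
  M_pos := (localMonodromy z).M_pos
  hJ x := by
    induction x using QuotientGroup.induction_on with | _ a => ?_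
    rw [sheet_mk, pointHom_jSubC]
    exact (MeroGerm.ord_mk _ _).trans (order_jC_sub _)
  common x y := by
    induction x using QuotientGroup.induction_on with | _ a => ?_
    induction y using QuotientGroup.induction_on with | _ b => ?_
    rw [sheet_mk, sheet_mk, pointHom_jSubC, pointHom_jSubC]
  σ := (localMonodromy z).σ
  ζ := (localMonodromy z).rot
  hζ := (localMonodromy z).isPrimitiveRoot_rot
  lead := (localMonodromy z).σ_lead
  π x := (localMonodromy z).g⁻¹ • x
  π_spec x := by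
    induction x using QuotientGroup.induction_on with | _ a => ?_
    rw [MulAction.Quotient.smul_coe, smul_eq_mul, sheet_mk, sheet_mk, σ_comp_pointHom,
      mul_inv_rev, inv_inv]

variable {Γ}

/-! ### The cusp -/

/-- A member of the regular ring at the cusp `h ∞`, in the parameter `τ` with period one. -/
def evalCusp (h : SL(2, ℤ)) (f : levelRingOf Γ) : ℍ → ℂ := fun τ => (f : ℍ → ℂ) (h • dil (cuspPeriod Γ) τ)

theorem evalCusp_mem (h : SL(2, ℤ)) (f : levelRingOf Γ) : evalCusp h f ∈ cuspRing :=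
  mem_cuspRing_at_cusp_of f h

/-- The germ in `q^(1/N)` at the cusp `h ∞`. -/
def cuspGermHom (h : SL(2, ℤ)) : levelRingOf Γ →ₐ[ℂ] MeroGerm (0 : ℂ) where
  toFun f := MeroGerm.mk (cuspFunction 1 (evalCusp h f))
    (meromorphicAt_cuspFunction (evalCusp_mem h f))
  map_one' := by
    rw [MeroGerm.one_eq, MeroGerm.mk_eq_mk]
    filter_upwards [eventually_invQParam_im_pos] with q hq
    rw [cuspFunction_apply_of_ne _ hq.1]
    rfl
  map_mul' f g := by
    rw [MeroGerm.mk_mul, MeroGerm.mk_eq_mk]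
    filter_upwards [eventually_invQParam_im_pos] with q hq
    simp only [Pi.mul_apply, cuspFunction_apply_of_ne _ hq.1]
    rfl
  map_zero' := by
    rw [MeroGerm.zero_eq, MeroGerm.mk_eq_mk]
    filter_upwards [eventually_invQParam_im_pos] with q hq
    rw [cuspFunction_apply_of_ne _ hq.1]
    rfl
  map_add' f g := by
    rw [MeroGerm.mk_add, MeroGerm.mk_eq_mk]
    filter_upwards [eventually_invQParam_im_pos] with q hq
    simp only [Pi.add_apply, cuspFunction_apply_of_ne _ hq.1]
    rfl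
  commutes' c := by
    rw [MeroGerm.algebraMap_eq, MeroGerm.mk_eq_mk]
    filter_upwards [eventually_invQParam_im_pos] with q hq
    rw [cuspFunction_apply_of_ne _ hq.1]
    rfl

theorem cuspGermHom_apply (h : SL(2, ℤ)) (f : levelRingOf Γ) :
    cuspGermHom h f = MeroGerm.mk (cuspFunction 1 (evalCusp h f))
      (meromorphicAt_cuspFunction (evalCusp_mem h f)) := rfl

theorem evalCusp_eq_of_germ {h h' : SL(2, ℤ)} {f g : levelRingOf Γ}
    (he : cuspGermHom h f = cuspGermHom h' g) :
    ∀ τ : ℍ, (f : ℍ → ℂ) (h • τ) = (g : ℍ → ℂ) (h' • τ) := by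
  rw [cuspGermHom_apply, cuspGermHom_apply, MeroGerm.mk_eq_mk] at he
  have h1 : ∀ᶠ τ in atImInfty, evalCusp h f τ = evalCusp h' g τ := by
    have ht : Tendsto (fun τ : ℍ => 𝕢 1 (τ : ℂ)) atImInfty (𝓝[≠] 0) :=
      tendsto_nhdsWithin_iff.2 ⟨qParam_tendsto_atImInfty one_pos,
        Eventually.of_forall fun τ => Complex.exp_ne_zero _⟩
    filter_upwards [ht.eventually he] with τ hτ
    rwa [cuspFunction_qParam (evalCusp_mem h f), cuspFunction_qParam (evalCusp_mem h' g)] at hτ
  obtain ⟨A, hA⟩ := (atImInfty_mem _).1 h1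
  set B : ℝ := max A 1 with hB
  let τ₀ : ℍ := ⟨⟨0, B + 1⟩, by
    show 0 < B + 1
    linarith [le_max_right A 1]⟩
  set z : ℍ := dil (cuspPeriod Γ) τ₀ with hz
  have hNpos : (0 : ℝ) < cuspPeriod Γ := Nat.cast_pos.2 (NeZero.pos (cuspPeriod Γ))
  have hne : evalC h f =ᶠ[𝓝[≠] (z : ℂ)] evalC h' g := by
    have hev : ∀ᶠ w in 𝓝 (z : ℂ), 0 < w.im ∧ (cuspPeriod Γ : ℝ) * A < w.im := by
      refine (eventually_im_pos z).and
        ((Complex.continuous_im.tendsto _).eventually (eventually_gt_nhds ?_))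
      show (cuspPeriod Γ : ℝ) * A < (dil (cuspPeriod Γ) τ₀).im
      rw [FermatAgent.ModFun.dil_im]
      refine mul_lt_mul_of_pos_left ?_ hNpos
      show A < B + 1
      linarith [le_max_left A 1]
    filter_upwards [nhdsWithin_le_nhds hev] with w hw
    let σ : ℍ := ⟨w / (cuspPeriod Γ), by rw [Complex.div_natCast_im]; exact div_pos hw.1 hNpos⟩
    have hσ : dil (cuspPeriod Γ) σ = ofComplex w := by
      rw [ofComplex_apply_of_im_pos hw.1]
      ext
      rw [FermatAgent.ModFun.coe_dil]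
      show ((cuspPeriod Γ : ℕ) : ℂ) * (w / (cuspPeriod Γ)) = w
      rw [mul_div_cancel₀ _ (NeZero.ne _)]
    have hσA : A ≤ σ.im := by
      show A ≤ (w / (cuspPeriod Γ)).im
      rw [Complex.div_natCast_im, le_div_iff₀ hNpos]
      linarith [hw.2]
    have h3 := hA σ hσA
    simp only [Set.mem_ofPred_eq, evalCusp, hσ] at h3
    exact h3
  exact level_eq_of_germ hne

theorem cuspGermHom_injective (h : SL(2, ℤ)) :
    Function.Injective (cuspGermHom (Γ := Γ) h) := by
  intro f g he
  refine Subtype.ext (funext fun τ => ?_)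
  have := evalCusp_eq_of_germ he (h⁻¹ • τ)
  rwa [smul_inv_smul] at this

variable (Γ)

/-- The embedding of the function field at the cusp `h ∞`. -/
def cuspHom (h : SL(2, ℤ)) : FieldOf Γ →ₐ[ℂ] MeroGerm (0 : ℂ) :=
  extendHom (cuspGermHom h) (cuspGermHom_injective h)

theorem cuspHom_toField (h : SL(2, ℤ)) (f : levelRingOf Γ) :
    cuspHom Γ h (toField Γ f) = cuspGermHom h f := extendHom_toField _ _ _

theorem cuspHom_mul_left {γ : SL(2, ℤ)} (hγ : γ ∈ Γ) (h : SL(2, ℤ)) :
    cuspHom Γ (γ * h) = cuspHom Γ h := by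
  refine algHom_ext fun f => ?_
  rw [cuspHom_toField, cuspHom_toField, cuspGermHom_apply, cuspGermHom_apply, MeroGerm.mk_eq_mk]
  have : evalCusp (γ * h) f = evalCusp h f :=
    funext fun τ => by simp only [evalCusp, mul_smul, level_smul f hγ]
  rw [this]

theorem cuspσ_comp_cuspHom (h : SL(2, ℤ)) :
    (cuspσ (cuspPeriod Γ)).comp (cuspHom Γ h) = cuspHom Γ (h * ModularGroup.T) := by
  refine algHom_ext fun f => ?_
  rw [AlgHom.comp_apply, cuspHom_toField, cuspHom_toField, cuspGermHom_apply, cuspGermHom_apply,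
    cuspσ, MeroGerm.compHom_mk, MeroGerm.mk_eq_mk]
  filter_upwards [eventually_invQParam_im_pos] with q hq
  set τ : ℍ := ⟨Periodic.invQParam 1 q, hq.2⟩ with hτ
  have hqτ : 𝕢 1 (τ : ℂ) = q := Periodic.qParam_right_inv one_ne_zero hq.1
  have hrot : cuspRot (cuspPeriod Γ) * q = 𝕢 1 (((1 / cuspPeriod Γ : ℝ) +ᵥ τ : ℍ) : ℂ) := by
    rw [FermatAgent.ModFun.qParam_vadd, hqτ, cuspRot]
    congr 2
    push_cast
    ring
  rw [Function.comp_apply, hrot, cuspFunction_qParam (evalCusp_mem h f)]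
  rw [← hqτ, cuspFunction_qParam (evalCusp_mem _ f)]
  simp only [evalCusp, dil_inv_natCast_vadd, mul_smul]

/-- The element `1/j` of the function field. -/
def invJ : FieldOf Γ := (toField Γ (jElt Γ))⁻¹

theorem cuspHom_invJ (h : SL(2, ℤ)) :
    cuspHom Γ h (invJ Γ) = (MeroGerm.mk (cuspFunction 1 (jd (cuspPeriod Γ)))
      (meromorphicAt_cuspFunction
        (FermatAgent.ModFun.mem_cuspRing_comp_dil FermatAgent.ModFun.jFun_mem_cuspRing (cuspPeriod Γ))))⁻¹ := by
  rw [invJ, map_inv₀, cuspHom_toField, cuspGermHom_apply]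
  refine congrArg Inv.inv (MeroGerm.mk_eq_mk.2 ?_)
  have : evalCusp h (jElt Γ) = jd (cuspPeriod Γ) := funext fun τ => by
    simp only [evalCusp, coe_jElt, FermatAgent.ModFun.jFun_smul, jd, Function.comp_apply]
  rw [this]

/-- The sheet over the cusp attached to a coset `h Γ`. -/
def cuspSheet : Edge (Γ) → (FieldOf Γ →ₐ[ℂ] MeroGerm (0 : ℂ)) :=
  fun x => Quotient.liftOn' x (fun h => cuspHom Γ h⁻¹) fun a b hab => by
    rw [QuotientGroup.leftRel_apply] at hab
    show cuspHom Γ a⁻¹ = cuspHom Γ b⁻¹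
    rw [show a⁻¹ = (a⁻¹ * b) * b⁻¹ by group]
    exact cuspHom_mul_left Γ hab _

theorem cuspSheet_mk (h : SL(2, ℤ)) : cuspSheet Γ (h : Edge (Γ)) = cuspHom Γ h⁻¹ := rfl

theorem cuspSheet_injective : Function.Injective (cuspSheet Γ) := by
  intro x y hxy
  induction x using QuotientGroup.induction_on with | _ a => ?_
  induction y using QuotientGroup.induction_on with | _ b => ?_
  rw [cuspSheet_mk, cuspSheet_mk] at hxy
  have h1 := congrArg (fun φ : FieldOf Γ →ₐ[ℂ] MeroGerm (0 : ℂ) => φ (toField Γ (curveGen Γ).θ)) hxy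
  simp only [cuspHom_toField] at h1
  exact coset_eq_of_theta Γ (evalCusp_eq_of_germ h1)

/-- The sheets over the cusp with their monodromy. -/
def cuspSheets : SheetData (MeroGerm.valTarget (0 : ℂ)) (FieldOf Γ) (Edge (Γ)) where
  ι := cuspSheet Γ
  inj := cuspSheet_injective Γ
  J := invJ Γ
  M := cuspPeriod Γ
  M_pos := NeZero.pos (cuspPeriod Γ)
  hJ x := by
    induction x using QuotientGroup.induction_on with | _ a => ?_
    rw [cuspSheet_mk, cuspHom_invJ, AddValuation.map_inv,
      show (MeroGerm.valTarget (0 : ℂ)).v = MeroGerm.ord from rfl, MeroGerm.ord_mk,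
      meromorphicOrderAt_cuspFunction_jd, ← WithTop.LinearOrderedAddCommGroup.coe_neg, neg_neg]
  common x y := by
    induction x using QuotientGroup.induction_on with | _ a => ?_
    induction y using QuotientGroup.induction_on with | _ b => ?_
    rw [cuspSheet_mk, cuspSheet_mk, cuspHom_invJ, cuspHom_invJ]
  σ := cuspσ (cuspPeriod Γ)
  ζ := cuspRot (cuspPeriod Γ)
  hζ := isPrimitiveRoot_cuspRot (cuspPeriod Γ)
  lead := cuspσ_lead (cuspPeriod Γ)
  π x := ModularGroup.T⁻¹ • x
  π_spec x := by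
    induction x using QuotientGroup.induction_on with | _ a => ?_
    rw [MulAction.Quotient.smul_coe, smul_eq_mul, cuspSheet_mk, cuspSheet_mk, cuspσ_comp_cuspHom,
      mul_inv_rev, inv_inv]

end FermatAgent.DeligneSerre.Curves
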